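import Fermat.Statements.S49
import Fermat.Prelude.Def_CuspForm_HeckeAlgebra
import Fermat.Prelude.Def_CuspForm_IntegralStructure
import Fermat.Prelude.Thm_CuspForm_intLattice_fg
import Fermat.Prelude.Thm_CuspForm_mem_intLattice_of_mem_heckeAlgebra
import Fermat.Prelude.Thm_ModularFormClass_qCoeff_heckeT
import Fermat.Prelude.Thm_ModularFormClass_qCoeff_heckeU
import Fermat.Prelude.Thm_CongruenceSubgroup_one_mem_strictPeriods_Gamma0

set_option autoImplicit false
open CuspForm EisensteinWeightOne CongruenceSubgroup ModularFormClass UpperHalfPlane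

namespace Fermat.Agent.S49

variable {N : ℕ}

theorem qc_add (f g : CuspForm (Gamma0 N) 2) (n : ℕ) :
    qCoeff (⇑(f + g)) n = qCoeff f n + qCoeff g n := by
  unfold qCoeff
  rw [FunLike.coe_add, ModularForm.qExpansion_add one_pos (one_mem_strictPeriods_Gamma0 N) f g]
  simp

theorem qc_smul (c : ℂ) (f : CuspForm (Gamma0 N) 2) (n : ℕ) :
    qCoeff (⇑(c • f)) n = c * qCoeff f n := by
  unfold qCoeff
  rw [FunLike.coe_smul, ModularForm.qExpansion_smul one_pos (one_mem_strictPeriods_Gamma0 N) c f]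
  simp

/-- The `n`-th `q`-coefficient as a linear functional on cusp forms. -/
noncomputable def qcLin (N : ℕ) (n : ℕ) : CuspForm (Gamma0 N) 2 →ₗ[ℂ] ℂ where
  toFun f := qCoeff f n
  map_add' f g := qc_add f g n
  map_smul' c f := qc_smul c f n

theorem qcLin_apply (n : ℕ) (f : CuspForm (Gamma0 N) 2) : qcLin N n f = qCoeff f n := rfl

theorem qc_zero (f : CuspForm (Gamma0 N) 2) : qCoeff f 0 = 0 :=
  CuspFormClass.qExpansion_coeff_zero f one_pos (one_mem_strictPeriods_Gamma0 N)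

theorem eq_zero_of_qc (f : CuspForm (Gamma0 N) 2) (h : ∀ n, qCoeff f n = 0) : f = 0 := by
  have h1 : qExpansion 1 f = 0 := by
    ext n
    rw [map_zero]
    exact h n
  have hc : Fact (IsCusp OnePoint.infty
      (Subgroup.map (Matrix.SpecialLinearGroup.mapGL ℝ) (Gamma0 N))) :=
    ⟨Subgroup.isCusp_of_mem_strictPeriods one_pos (one_mem_strictPeriods_Gamma0 N)⟩
  have := (UpperHalfPlane.qExpansion_eq_zero_iff one_pos
    (SlashInvariantFormClass.periodic_comp_ofComplex f (one_mem_strictPeriods_Gamma0 N))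
    (ModularFormClass.holo f) (ModularFormClass.bdd_at_infty f)).mp h1
  exact DFunLike.coe_injective this

theorem qc_heckeT {ℓ : ℕ} (hℓ : ℓ.Prime) (hℓN : ¬ ℓ ∣ N) (f : CuspForm (Gamma0 N) 2) (n : ℕ) :
    qCoeff (⇑(CuspForm.heckeTLin 2 hℓ hℓN f)) n =
      qCoeff f (n * ℓ) + if ℓ ∣ n then (ℓ : ℂ) * qCoeff f (n / ℓ) else 0 := by
  rw [CuspForm.coe_heckeTLin_apply, ModularFormClass.qCoeff_heckeT f
    (one_mem_strictPeriods_Gamma0 N) hℓ.ne_zero n, ModularForm.coeffHeckeT_apply]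
  norm_num

theorem qc_heckeU [NeZero N] {q : ℕ} (hq : q.Prime) (hqN : q ∣ N) (f : CuspForm (Gamma0 N) 2)
    (n : ℕ) :
    qCoeff (⇑(CuspForm.heckeULin 2 hqN f)) n = qCoeff f (n * q) := by
  rw [CuspForm.coe_heckeULin_apply, ModularFormClass.qCoeff_heckeU f
    (one_mem_strictPeriods_Gamma0 N) hq.ne_zero n, ModularForm.coeffHeckeU_apply]

theorem qc_int_of_mem_intLattice {g : CuspForm (Gamma0 N) 2}
    (hg : g ∈ CuspForm.intLattice N 2) : ∀ n, ∃ m : ℤ, qCoeff g n = m := by
  unfold CuspForm.intLattice at hg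
  induction hg using Submodule.span_induction with
  | mem x hx => exact hx
  | zero =>
    intro n
    exact ⟨0, by rw [← qcLin_apply, map_zero, Int.cast_zero]⟩
  | add x y _ _ hx hy =>
    intro n
    obtain ⟨a, ha⟩ := hx n
    obtain ⟨b, hb⟩ := hy n
    exact ⟨a + b, by rw [qc_add, ha, hb, Int.cast_add]⟩
  | smul c x _ hx =>
    intro n
    obtain ⟨a, ha⟩ := hx n
    exact ⟨c * a, by rw [← qcLin_apply, map_zsmul, qcLin_apply, ha, Int.cast_mul, zsmul_eq_mul]⟩

theorem mem_intLattice_of_qc_int {g : CuspForm (Gamma0 N) 2}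
    (hg : ∀ n, ∃ m : ℤ, qCoeff g n = m) : g ∈ CuspForm.intLattice N 2 :=
  Submodule.subset_span hg

theorem qIntegralSet_subset_intLattice :
    CuspForm.qIntegralSet N ⊆ (CuspForm.intLattice N 2 : Set (CuspForm (Gamma0 N) 2)) := by
  intro f hf
  apply mem_intLattice_of_qc_int
  intro n
  obtain ⟨m, hm⟩ := Subring.mem_bot.mp (hf n)
  exact ⟨m, hm.symm⟩

theorem span_intLattice_eq_top (h : CuspForm.HasIntegralBasis N) :
    Submodule.span ℂ (CuspForm.intLattice N 2 : Set (CuspForm (Gamma0 N) 2)) = ⊤ := by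
  rw [eq_top_iff, ← h]
  exact Submodule.span_mono qIntegralSet_subset_intLattice

theorem finiteDimensional_of_hasIntegralBasis [NeZero N] (h : CuspForm.HasIntegralBasis N) :
    FiniteDimensional ℂ (CuspForm (Gamma0 N) 2) := by
  obtain ⟨s, hs⟩ := CuspForm.intLattice_fg N 2
  refine ⟨⟨s, ?_⟩⟩
  rw [eq_top_iff, ← span_intLattice_eq_top h]
  apply Submodule.span_le.mpr
  intro f hf
  have hfL : f ∈ Submodule.span ℤ (s : Set (CuspForm (Gamma0 N) 2)) := hs ▸ hf
  exact Submodule.span_subset_span ℤ ℂ _ hfL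

end Fermat.Agent.S49
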