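import Mathlib

set_option autoImplicit false

namespace Fermat.Agent.S49

open Module

/-- Key induction: a commutative ring acting on a finite-dimensional space over an algebraically
closed field; for a prime ideal containing the annihilator of a nonzero stable subspace, there is
a common eigenvector in that subspace whose annihilator is still inside the prime. -/
theorem exists_eigenvector_ann_le_aux {K V : Type*} [Field K] [IsAlgClosed K] [AddCommGroup V]
    [Module K V] [FiniteDimensional K V] {A : Type*} [CommRing A] (ρ : A →+* Module.End K V)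
    (𝔪 : Ideal A) [𝔪.IsPrime] :
    ∀ (n : ℕ) (W : Submodule K V), finrank K W = n → W ≠ ⊥ → (∀ a, ∀ w ∈ W, ρ a w ∈ W) →
      (∀ a, (∀ w ∈ W, ρ a w = 0) → a ∈ 𝔪) →
      ∃ v ∈ W, v ≠ 0 ∧ (∀ a, ∃ c : K, ρ a v = c • v) ∧ (∀ a, ρ a v = 0 → a ∈ 𝔪) := by
  intro n
  induction n using Nat.strong_induction_on with
  | _ n ih =>
    intro W hn hW hstab hann
    by_cases hsc : ∀ a, ∃ c : K, ∀ w ∈ W, ρ a w = c • w
    · obtain ⟨v, hvW, hv0⟩ := Submodule.exists_mem_ne_zero_of_ne_bot hW
      refine ⟨v, hvW, hv0, fun a => ?_, fun a ha => ?_⟩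
      · obtain ⟨c, hc⟩ := hsc a
        exact ⟨c, hc v hvW⟩
      · obtain ⟨c, hc⟩ := hsc a
        have hc0 : c = 0 := by
          have := hc v hvW
          rw [ha] at this
          exact (smul_eq_zero.mp this.symm).resolve_right hv0
        apply hann
        intro w hw
        rw [hc w hw, hc0, zero_smul]
    · push Not at hsc
      obtain ⟨a, ha⟩ := hsc
      have hnt : Nontrivial W := Submodule.nontrivial_iff_ne_bot.mpr hW
      obtain ⟨μ, hμ⟩ := Module.End.exists_eigenvalue ((ρ a).restrict (hstab a))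
      obtain ⟨w₀, hw₀⟩ := hμ.exists_hasEigenvector
      have hw₀eq : ρ a (w₀ : V) = μ • (w₀ : V) := by
        have := hw₀.apply_eq_smul
        exact congrArg Subtype.val this
      have hw₀ne : (w₀ : V) ≠ 0 := fun h => hw₀.2 (Subtype.ext h)
      obtain ⟨w₁, hw₁W, hw₁⟩ := ha μ
      -- the operator D = ρ a - μ
      set D : Module.End K V := ρ a - algebraMap K (Module.End K V) μ with hD
      have hDapp : ∀ x, D x = ρ a x - μ • x := fun x => by
        simp [hD, Module.algebraMap_end_apply]
      have hcomm : ∀ b x, ρ b (D x) = D (ρ b x) := by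
        intro b x
        rw [hDapp, hDapp, map_sub, map_smul]
        congr 1
        have h1 : ρ (b * a) x = ρ (a * b) x := by rw [mul_comm]
        simpa [map_mul] using h1
      have hDW : ∀ w ∈ W, D w ∈ W := fun w hw => by
        rw [hDapp]
        exact W.sub_mem (hstab a w hw) (W.smul_mem μ hw)
      -- the two smaller subspaces
      set W₁ : Submodule K V := W ⊓ LinearMap.ker D with hW₁
      set W₂ : Submodule K V := W.map D with hW₂
      have hW₁lt : W₁ < W := by
        refine lt_of_le_of_ne inf_le_left fun h => ?_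
        have : w₁ ∈ W₁ := h ▸ hw₁W
        have h0 : D w₁ = 0 := this.2
        rw [hDapp, sub_eq_zero] at h0
        exact hw₁ h0
      have hW₂le : W₂ ≤ W := by
        rintro _ ⟨w, hw, rfl⟩
        exact hDW w hw
      have hW₂lt : W₂ < W := by
        refine lt_of_le_of_ne hW₂le fun h => ?_
        have hsurj : Function.Surjective (D.restrict hDW) := by
          rintro ⟨y, hy⟩
          have hy' : y ∈ W₂ := h ▸ hy
          obtain ⟨w, hw, rfl⟩ := hy'
          exact ⟨⟨w, hw⟩, rfl⟩
        have hinj : Function.Injective (D.restrict hDW) :=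
          LinearMap.injective_iff_surjective.mpr hsurj
        have h0 : D.restrict hDW w₀ = 0 := by
          apply Subtype.ext
          change D (w₀ : V) = 0
          rw [hDapp, hw₀eq, sub_self]
        exact hw₀.2 (hinj (h0.trans (map_zero _).symm))
      have hW₁ne : W₁ ≠ ⊥ := by
        intro h
        have : (w₀ : V) ∈ W₁ := ⟨w₀.2, by
          change D (w₀ : V) = 0
          rw [hDapp, hw₀eq, sub_self]⟩
        rw [h] at this
        exact hw₀ne this
      have hW₂ne : W₂ ≠ ⊥ := by
        intro h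
        have : D w₁ ∈ W₂ := ⟨w₁, hw₁W, rfl⟩
        rw [h, Submodule.mem_bot, hDapp, sub_eq_zero] at this
        exact hw₁ this
      have hstab₁ : ∀ b, ∀ w ∈ W₁, ρ b w ∈ W₁ := by
        intro b w hw
        refine ⟨hstab b w hw.1, ?_⟩
        change D (ρ b w) = 0
        rw [← hcomm, show D w = 0 from hw.2, map_zero]
      have hstab₂ : ∀ b, ∀ w ∈ W₂, ρ b w ∈ W₂ := by
        rintro b _ ⟨w, hw, rfl⟩
        exact ⟨ρ b w, hstab b w hw, (hcomm b w).symm⟩
      have hor : (∀ b, (∀ w ∈ W₁, ρ b w = 0) → b ∈ 𝔪) ∨ (∀ b, (∀ w ∈ W₂, ρ b w = 0) → b ∈ 𝔪) := by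
        by_contra hcon
        push Not at hcon
        obtain ⟨⟨b₁, hb₁, hb₁m⟩, ⟨b₂, hb₂, hb₂m⟩⟩ := hcon
        have : b₁ * b₂ ∈ 𝔪 := by
          apply hann
          intro w hw
          rw [map_mul, Module.End.mul_apply]
          apply hb₁
          refine ⟨hstab b₂ w hw, ?_⟩
          change D (ρ b₂ w) = 0
          rw [← hcomm]
          exact hb₂ _ ⟨w, hw, rfl⟩
        rcases Ideal.IsPrime.mem_or_mem inferInstance this with h | h
        · exact hb₁m h
        · exact hb₂m h
      rcases hor with hann₁ | hann₂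
      · obtain ⟨v, hv, hv0, hv1, hv2⟩ := ih (finrank K W₁)
          (hn ▸ Submodule.finrank_lt_finrank_of_lt hW₁lt) W₁ rfl hW₁ne hstab₁ hann₁
        exact ⟨v, hW₁lt.le hv, hv0, hv1, hv2⟩
      · obtain ⟨v, hv, hv0, hv1, hv2⟩ := ih (finrank K W₂)
          (hn ▸ Submodule.finrank_lt_finrank_of_lt hW₂lt) W₂ rfl hW₂ne hstab₂ hann₂
        exact ⟨v, hW₂lt.le hv, hv0, hv1, hv2⟩


/-- Top-level version: a faithful-enough action on a nonzero finite-dimensional space. -/
theorem exists_eigenvector_ann_le {K V : Type*} [Field K] [IsAlgClosed K] [AddCommGroup V]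
    [Module K V] [FiniteDimensional K V] [Nontrivial V] {A : Type*} [CommRing A]
    (ρ : A →+* Module.End K V) (𝔪 : Ideal A) [𝔪.IsPrime]
    (hann : ∀ a, ρ a = 0 → a ∈ 𝔪) :
    ∃ v : V, v ≠ 0 ∧ (∀ a, ∃ c : K, ρ a v = c • v) ∧ (∀ a, ρ a v = 0 → a ∈ 𝔪) := by
  obtain ⟨v, -, hv⟩ := exists_eigenvector_ann_le_aux ρ 𝔪 _ (⊤ : Submodule K V) rfl top_ne_bot
    (fun _ _ _ => Submodule.mem_top)
    (fun a ha => hann a (LinearMap.ext fun w => by simpa using ha w Submodule.mem_top))
  exact ⟨v, hv⟩

/-- A common eigenvector gives a character. -/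
theorem exists_character_of_eigenvector {K V : Type*} [Field K] [AddCommGroup V] [Module K V]
    {A : Type*} [CommRing A] (ρ : A →+* Module.End K V) (v : V) (hv : v ≠ 0)
    (h : ∀ a, ∃ c : K, ρ a v = c • v) :
    ∃ χ : A →+* K, ∀ a, ρ a v = χ a • v := by
  choose c hc using h
  have huniq : ∀ {x y : K}, x • v = y • v → x = y := fun {x y} hxy => by
    by_contra hne
    have h0 : (x - y) • v = 0 := by rw [sub_smul, hxy, sub_self]
    rcases smul_eq_zero.mp h0 with h | h
    · exact hne (sub_eq_zero.mp h)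
    · exact hv h
  refine ⟨{ toFun := c, map_one' := ?_, map_mul' := ?_, map_zero' := ?_, map_add' := ?_ }, hc⟩
  · apply huniq
    rw [← hc, map_one, one_smul]
    rfl
  · intro a b
    apply huniq
    rw [← hc, map_mul, Module.End.mul_apply, hc b, map_smul, hc a, smul_smul, mul_comm]
  · apply huniq
    rw [← hc, map_zero, zero_smul]
    rfl
  · intro a b
    apply huniq
    rw [← hc, map_add, LinearMap.add_apply, hc, hc, add_smul]

/-- Eigenvalues of operators preserving a finitely generated spanning lattice are algebraic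
integers. -/
theorem isIntegral_character {V : Type*} [AddCommGroup V] [Module ℂ V] {A : Type*} [CommRing A]
    (ρ : A →+* Module.End ℂ V) (L : Submodule ℤ V) (hL : L.FG)
    (hspan : Submodule.span ℂ (L : Set V) = ⊤)
    (hstab : ∀ a, ∀ x ∈ L, ρ a x ∈ L) (χ : A →+* ℂ) (v : V) (hv : v ≠ 0)
    (hχ : ∀ a, ρ a v = χ a • v) (a : A) :
    IsIntegral ℤ (χ a) := by
  have hfin : Module.Finite ℤ L := Module.Finite.iff_fg.mpr hL
  let φ : A →+* Module.End ℤ L :=
    { toFun := fun a => ((ρ a).restrictScalars ℤ).restrict (hstab a)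
      map_one' := by
        ext x
        change (ρ 1) (x : V) = x
        rw [map_one]
        rfl
      map_mul' := fun a b => by
        ext x
        change (ρ (a * b)) (x : V) = ρ a (ρ b x)
        rw [map_mul]
        rfl
      map_zero' := by
        ext x
        change (ρ 0) (x : V) = 0
        rw [map_zero]
        rfl
      map_add' := fun a b => by
        ext x
        change (ρ (a + b)) (x : V) = ρ a x + ρ b x
        rw [map_add]
        rfl }
  obtain ⟨p, hpm, hp⟩ : IsIntegral ℤ (φ a) := Algebra.IsIntegral.isIntegral _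
  rw [← Polynomial.aeval_def] at hp
  have h1 : φ (Polynomial.aeval a p) = 0 := by
    have := Polynomial.aeval_algHom_apply φ.toIntAlgHom a p
    rw [← hp]
    exact this.symm
  have h2 : ∀ x ∈ L, ρ (Polynomial.aeval a p) x = 0 := by
    intro x hx
    exact congrArg (fun g : Module.End ℤ L => ((g ⟨x, hx⟩ : L) : V)) h1
  have h3gen : ∀ y ∈ Submodule.span ℂ (L : Set V), ρ (Polynomial.aeval a p) y = 0 := by
    intro y hy
    induction hy using Submodule.span_induction with
    | mem x hx => exact h2 x hx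
    | zero => exact map_zero _
    | add x y _ _ hx hy => rw [map_add, hx, hy, add_zero]
    | smul c x _ hx => rw [map_smul, hx, smul_zero]
  have h3 : ρ (Polynomial.aeval a p) v = 0 := h3gen v (hspan ▸ Submodule.mem_top)
  rw [hχ] at h3
  have h4 : χ (Polynomial.aeval a p) = 0 := (smul_eq_zero.mp h3).resolve_right hv
  refine ⟨p, hpm, ?_⟩
  rw [← Polynomial.aeval_def]
  have := Polynomial.aeval_algHom_apply χ.toIntAlgHom a p
  rw [← h4]
  exact this

/-- Lying over for the ring of algebraic integers along an integral character. -/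
theorem exists_maximal_over {A : Type*} [CommRing A] (χ : A →+* ℂ)
    (hint : ∀ a, IsIntegral ℤ (χ a)) (𝔪 : Ideal A) [𝔪.IsMaximal] (hker : ∀ a, χ a = 0 → a ∈ 𝔪) :
    ∃ 𝔪' : Ideal (integralClosure ℤ ℂ), 𝔪'.IsMaximal ∧
      ∀ a ∈ 𝔪, ∀ c : integralClosure ℤ ℂ, (c : ℂ) = χ a → c ∈ 𝔪' := by
  let χ' : A →+* integralClosure ℤ ℂ := χ.codRestrict (integralClosure ℤ ℂ) hint
  let _ : Algebra A (integralClosure ℤ ℂ) := χ'.toAlgebra
  have : Algebra.IsIntegral A (integralClosure ℤ ℂ) :=
    ⟨fun x => (Algebra.IsIntegral.isIntegral (R := ℤ) x).tower_top⟩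
  have hk : RingHom.ker (algebraMap A (integralClosure ℤ ℂ)) ≤ 𝔪 := by
    intro a ha
    apply hker
    have : χ' a = 0 := ha
    exact congrArg Subtype.val this
  obtain ⟨Q, hQ, hQc⟩ := Ideal.exists_ideal_over_maximal_of_isIntegral 𝔪 hk
  refine ⟨Q, hQ, fun a ha c hc => ?_⟩
  have : a ∈ Ideal.comap (algebraMap A (integralClosure ℤ ℂ)) Q := hQc ▸ ha
  have h2 : c = χ' a := Subtype.ext hc
  rw [h2]
  exact this

end Fermat.Agent.S49
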