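import Mathlib
import Fermat.Prelude.Def_FormalHecke_Eigensystem

set_option autoImplicit false

namespace Fermat.Agent.S49

/-- A formal Hecke eigensystem is multiplicative on coprime arguments. -/
theorem isEigensystem_mul_of_coprime {R : Type*} [CommRing R] {e a : ℕ → R}
    (h : FormalHecke.IsEigensystem e a) :
    ∀ m n : ℕ, m.Coprime n → a (m * n) = a m * a n := by
  obtain ⟨h1, hrec⟩ := h
  intro m
  induction m using Nat.strong_induction_on with
  | _ m ih =>
    intro n hmn
    rcases Nat.lt_or_ge m 2 with hm | hm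
    · interval_cases m
      · have hn : n = 1 := by simpa using hmn
        subst hn
        simp [h1]
      · simp [h1]
    · have hm1 : m ≠ 1 := by omega
      set ℓ := m.minFac with hℓ
      have hℓp : ℓ.Prime := Nat.minFac_prime hm1
      obtain ⟨m', hm'⟩ : ℓ ∣ m := Nat.minFac_dvd m
      have hm'pos : 0 < m' := by
        rcases Nat.eq_zero_or_pos m' with h0 | h0
        · subst h0; omega
        · exact h0
      have hm'lt : m' < m := by
        rw [hm']
        exact lt_mul_of_one_lt_left hm'pos hℓp.one_lt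
      have hcop' : m'.Coprime n := Nat.Coprime.coprime_dvd_left ⟨ℓ, by rw [hm', mul_comm]⟩ hmn
      have hℓn : ¬ ℓ ∣ n := by
        intro hd
        have : ℓ ∣ Nat.gcd m n := Nat.dvd_gcd (Nat.minFac_dvd m) hd
        rw [hmn] at this
        exact hℓp.one_lt.ne' (Nat.dvd_one.mp this)
      have e1 := hrec ℓ hℓp (m' * n)
      have e2 := hrec ℓ hℓp m'
      have ih1 := ih m' hm'lt n hcop'
      rw [hm', mul_assoc]
      by_cases hd : ℓ ∣ m'
      · obtain ⟨m'', hm''⟩ := hd
        have hm''lt : m'' < m := by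
          have : m'' ≤ m' := by
            rw [hm'']
            exact Nat.le_mul_of_pos_left _ hℓp.pos
          omega
        have hcop'' : m''.Coprime n :=
          Nat.Coprime.coprime_dvd_left ⟨ℓ, by rw [hm'', mul_comm]⟩ hcop'
        have ih2 := ih m'' hm''lt n hcop''
        have hd1 : ℓ ∣ m' * n := ⟨m'' * n, by rw [hm'', mul_assoc]⟩
        have hq1 : m' * n / ℓ = m'' * n := by
          rw [hm'', mul_assoc, Nat.mul_div_cancel_left _ hℓp.pos]
        have hq2 : m' / ℓ = m'' := by
          rw [hm'', Nat.mul_div_cancel_left _ hℓp.pos]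
        have hd2 : ℓ ∣ m' := ⟨m'', hm''⟩
        rw [if_pos hd1, hq1, ih2, ih1] at e1
        rw [if_pos hd2, hq2] at e2
        linear_combination e1 - a n * e2
      · have hd1 : ¬ ℓ ∣ m' * n := by
          intro hdd
          rcases (Nat.Prime.dvd_mul hℓp).mp hdd with h' | h'
          · exact hd h'
          · exact hℓn h'
        rw [if_neg hd1, ih1] at e1
        rw [if_neg hd] at e2
        linear_combination e1 - a n * e2

/-- A formal Hecke eigensystem satisfies the prime-power recursion. -/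
theorem isEigensystem_prime_pow {R : Type*} [CommRing R] {e a : ℕ → R}
    (h : FormalHecke.IsEigensystem e a) (ℓ r : ℕ) (hℓ : ℓ.Prime) :
    a (ℓ ^ (r + 2)) = a ℓ * a (ℓ ^ (r + 1)) - e ℓ * a (ℓ ^ r) := by
  have e1 := h.2 ℓ hℓ (ℓ ^ (r + 1))
  have hd : ℓ ∣ ℓ ^ (r + 1) := dvd_pow_self ℓ (Nat.succ_ne_zero r)
  have hq : ℓ ^ (r + 1) / ℓ = ℓ ^ r := by
    rw [pow_succ, Nat.mul_div_cancel _ hℓ.pos]
  rw [if_pos hd, hq] at e1
  have hp : ℓ ^ (r + 2) = ℓ * ℓ ^ (r + 1) := by ring
  rw [hp]
  linear_combination e1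

end Fermat.Agent.S49
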