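import Fermat.Agent.S49.Forms

set_option autoImplicit false
open CuspForm EisensteinWeightOne CongruenceSubgroup ModularFormClass UpperHalfPlane

namespace Fermat.Agent.S49

variable {N : ℕ} [NeZero N]

/-- Hecke operators preserve "q-coefficients in 3ℤ". -/
theorem qc_three_of_heckeAlgebra (s : CuspForm.heckeAlgebra N 2 ∅) {g : CuspForm (Gamma0 N) 2}
    (hg : ∀ n, ∃ m : ℤ, qCoeff g n = 3 * m) :
    ∀ n, ∃ m : ℤ, qCoeff (⇑((s : Module.End ℂ (CuspForm (Gamma0 N) 2)) g)) n = 3 * m := by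
  have hg' : ((3 : ℂ)⁻¹ • g) ∈ CuspForm.intLattice N 2 := by
    apply mem_intLattice_of_qc_int
    intro n
    obtain ⟨m, hm⟩ := hg n
    refine ⟨m, ?_⟩
    rw [qc_smul, hm]
    field_simp
  have hs := CuspForm.mem_intLattice_of_mem_heckeAlgebra (by norm_num : (1 : ℤ) ≤ 2) s.2 hg'
  intro n
  obtain ⟨m, hm⟩ := qc_int_of_mem_intLattice hs n
  refine ⟨m, ?_⟩
  have h3 : g = (3 : ℂ) • ((3 : ℂ)⁻¹ • g) := by
    rw [smul_smul, mul_inv_cancel₀ (by norm_num : (3 : ℂ) ≠ 0), one_smul]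
  rw [h3, map_smul, qc_smul, hm]

/-- The ideal of Hecke operators sending `f₀` to a form with `q`-coefficients in `3ℤ`. -/
noncomputable def congIdeal (f₀ : CuspForm (Gamma0 N) 2) : Ideal (CuspForm.heckeAlgebra N 2 ∅) where
  carrier := {t | ∀ n, ∃ m : ℤ,
    qCoeff (⇑((t : Module.End ℂ (CuspForm (Gamma0 N) 2)) f₀)) n = 3 * m}
  add_mem' := by
    intro s t hs ht n
    obtain ⟨a, ha⟩ := hs n
    obtain ⟨b, hb⟩ := ht n
    refine ⟨a + b, ?_⟩
    have : ((s + t : CuspForm.heckeAlgebra N 2 ∅) : Module.End ℂ (CuspForm (Gamma0 N) 2)) f₀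
        = (s : Module.End ℂ (CuspForm (Gamma0 N) 2)) f₀ +
          (t : Module.End ℂ (CuspForm (Gamma0 N) 2)) f₀ := rfl
    rw [this, qc_add, ha, hb]
    push_cast
    ring
  zero_mem' := by
    intro n
    refine ⟨0, ?_⟩
    have : ((0 : CuspForm.heckeAlgebra N 2 ∅) : Module.End ℂ (CuspForm (Gamma0 N) 2)) f₀ = 0 := rfl
    rw [this, ← qcLin_apply, map_zero]
    simp
  smul_mem' := by
    intro s t ht
    have : ∀ n, ∃ m : ℤ, qCoeff (⇑((s : Module.End ℂ (CuspForm (Gamma0 N) 2))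
        ((t : Module.End ℂ (CuspForm (Gamma0 N) 2)) f₀))) n = 3 * m :=
      qc_three_of_heckeAlgebra s ht
    exact this

theorem mem_congIdeal {f₀ : CuspForm (Gamma0 N) 2} {t : CuspForm.heckeAlgebra N 2 ∅} :
    t ∈ congIdeal f₀ ↔ ∀ n, ∃ m : ℤ,
      qCoeff (⇑((t : Module.End ℂ (CuspForm (Gamma0 N) 2)) f₀)) n = 3 * m := Iff.rfl

end Fermat.Agent.S49
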